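import Mathlib
import Fermat.Agent.Lib.DS.Hecke.Comm

/-
T1G TG-MULT (0) (helper4 + helper8, merged): the Hecke algebra of weight 2 and level Γ₁(M) away from a
set S of primes, `tgHeckeAlg M S = ℤ[T_p (p ∤ M, p ∉ S), U_p (p ∣ M, p ∉ S), ⟨d⟩]` inside
`End_ℂ S₂(Γ₁(M))`.

IMPLEMENTATION NOTE (helper8).  `tgHeckeAlg M S` is deliberately NOT reducible to
`Algebra.adjoin ℤ (tgHeckeGens M S)` (it is a `Classical.choose` of the inductive predicate
`TgIsHeckeAlg M S`): a failing kernel comparison `tgHeckeAlg M S =?= tgHeckeAlg M S'` by unfolding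
`Algebra.adjoin` explodes (out of memory).  Use `tgHeckeAlg_eq` to unfold.
-/

open CongruenceSubgroup Fermat.Agent.DS

namespace Fermat.Agent.T1G

variable (M : ℕ) [NeZero M] (S : Set ℕ)

/-- the generators of the Hecke algebra of weight `2` and level `Γ₁(M)` away from `S`:
`T_p` (`p ∤ M`, `p ∉ S`), `U_p` (`p ∣ M`, `p ∉ S`) and all diamond operators -/
def tgHeckeGens : Set (Module.End ℂ (CuspForm (Gamma1 M) 2)) :=
  {t | ∃ (p : ℕ) (hp : p.Prime) (hpM : ¬ p ∣ M), p ∉ S ∧ t = dshTLin 2 hp hpM} ∪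
  {t | ∃ (p : ℕ) (_ : p.Prime) (hpM : p ∣ M), p ∉ S ∧ t = dshULin 2 hpM} ∪
  {t | ∃ d : (ZMod M)ˣ, t = dshDiamond 2 M d}

variable {M S}

theorem tgHeckeGens_comm : ∀ a ∈ tgHeckeGens M S, ∀ b ∈ tgHeckeGens M S, a * b = b * a := by
  rintro a ((⟨p, hp, hpM, -, rfl⟩ | ⟨p, hp, hpM, -, rfl⟩) | ⟨d, rfl⟩)
    b ((⟨q, hq, hqM, -, rfl⟩ | ⟨q, hq, hqM, -, rfl⟩) | ⟨e, rfl⟩)
  · exact dshTLin_comm hp hpM hq hqM
  · exact dshTLin_comm_dshULin hp hpM hqM
  · exact dshTLin_comm_dshDiamond hp hpM e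
  · exact (dshTLin_comm_dshULin hq hqM hpM).symm
  · exact dshULin_comm hpM hqM
  · exact dshULin_comm_dshDiamond hpM e
  · exact (dshTLin_comm_dshDiamond hq hqM d).symm
  · exact (dshULin_comm_dshDiamond hqM d).symm
  · exact dshDiamond_comm d e

variable (M S)

/-- the defining property of the Hecke algebra, as an inductive predicate -/
structure TgIsHeckeAlg (A : Subalgebra ℤ (Module.End ℂ (CuspForm (Gamma1 M) 2))) : Prop where
  eq_adjoin : A = Algebra.adjoin ℤ (tgHeckeGens M S)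

theorem tg_exists_heckeAlg : ∃ A, TgIsHeckeAlg M S A := ⟨_, ⟨rfl⟩⟩

/-- the Hecke algebra of weight `2` and level `Γ₁(M)` away from `S` -/
noncomputable def tgHeckeAlg : Subalgebra ℤ (Module.End ℂ (CuspForm (Gamma1 M) 2)) :=
  Classical.choose (tg_exists_heckeAlg M S)

theorem tgHeckeAlg_eq : tgHeckeAlg M S = Algebra.adjoin ℤ (tgHeckeGens M S) :=
  (Classical.choose_spec (tg_exists_heckeAlg M S)).eq_adjoin

instance tgHeckeAlg.instIsMulCommutative : IsMulCommutative (tgHeckeAlg M S) := by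
  rw [tgHeckeAlg_eq]
  exact Algebra.isMulCommutative_adjoin ℤ tgHeckeGens_comm

open scoped IsMulCommutative in
noncomputable instance tgHeckeAlg.instCommRing : CommRing (tgHeckeAlg M S) := inferInstance

variable {M S}

theorem tgHeckeGens_subset :
    tgHeckeGens M S ⊆ (tgHeckeAlg M S : Set (Module.End ℂ (CuspForm (Gamma1 M) 2))) := by
  rw [tgHeckeAlg_eq]
  exact Algebra.subset_adjoin

theorem tgT_mem {p : ℕ} (hp : p.Prime) (hpM : ¬ p ∣ M) (hpS : p ∉ S) :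
    dshTLin 2 hp hpM ∈ tgHeckeAlg M S :=
  tgHeckeGens_subset (Or.inl (Or.inl ⟨p, hp, hpM, hpS, rfl⟩))

theorem tgU_mem {p : ℕ} (hp : p.Prime) (hpM : p ∣ M) (hpS : p ∉ S) :
    dshULin 2 hpM ∈ tgHeckeAlg M S :=
  tgHeckeGens_subset (Or.inl (Or.inr ⟨p, hp, hpM, hpS, rfl⟩))

theorem tgDiamond_mem (d : (ZMod M)ˣ) : dshDiamond 2 M d ∈ tgHeckeAlg M S :=
  tgHeckeGens_subset (Or.inr ⟨d, rfl⟩)

theorem tgHeckeGens_mono {S S' : Set ℕ} (h : S ⊆ S') : tgHeckeGens M S' ⊆ tgHeckeGens M S := by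
  rintro t ((⟨p, hp, hpM, hpS, rfl⟩ | ⟨p, hp, hpM, hpS, rfl⟩) | ⟨d, rfl⟩)
  · exact Or.inl (Or.inl ⟨p, hp, hpM, fun h' => hpS (h h'), rfl⟩)
  · exact Or.inl (Or.inr ⟨p, hp, hpM, fun h' => hpS (h h'), rfl⟩)
  · exact Or.inr ⟨d, rfl⟩

theorem tgHeckeAlg_mono {S S' : Set ℕ} (h : S ⊆ S') : tgHeckeAlg M S' ≤ tgHeckeAlg M S := by
  rw [tgHeckeAlg_eq, tgHeckeAlg_eq]
  exact Algebra.adjoin_mono (tgHeckeGens_mono h)

/-- `T_p` as an element of the Hecke algebra -/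
noncomputable def tgT {p : ℕ} (hp : p.Prime) (hpM : ¬ p ∣ M) (hpS : p ∉ S) : tgHeckeAlg M S :=
  ⟨dshTLin 2 hp hpM, tgT_mem hp hpM hpS⟩

/-- `U_p` as an element of the Hecke algebra -/
noncomputable def tgU {p : ℕ} (hp : p.Prime) (hpM : p ∣ M) (hpS : p ∉ S) : tgHeckeAlg M S :=
  ⟨dshULin 2 hpM, tgU_mem hp hpM hpS⟩

/-- the diamond operators as a homomorphism to the Hecke algebra -/
noncomputable def tgDia (M : ℕ) [NeZero M] (S : Set ℕ) : (ZMod M)ˣ →* tgHeckeAlg M S where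
  toFun d := ⟨dshDiamond 2 M d, tgDiamond_mem d⟩
  map_one' := Subtype.ext dshDiamond_one
  map_mul' d e := Subtype.ext (dshDiamond_mul d e)

@[simp] theorem coe_tgT {p : ℕ} (hp : p.Prime) (hpM : ¬ p ∣ M) (hpS : p ∉ S) :
    ((tgT hp hpM hpS : tgHeckeAlg M S) : Module.End ℂ (CuspForm (Gamma1 M) 2))
      = dshTLin 2 hp hpM := rfl

@[simp] theorem coe_tgU {p : ℕ} (hp : p.Prime) (hpM : p ∣ M) (hpS : p ∉ S) :
    ((tgU hp hpM hpS : tgHeckeAlg M S) : Module.End ℂ (CuspForm (Gamma1 M) 2))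
      = dshULin 2 hpM := rfl

@[simp] theorem coe_tgDia (d : (ZMod M)ˣ) :
    ((tgDia M S d : tgHeckeAlg M S) : Module.End ℂ (CuspForm (Gamma1 M) 2))
      = dshDiamond 2 M d := rfl

/-- induction principle for the Hecke algebra -/
theorem tgHeckeAlg_induction {P : Module.End ℂ (CuspForm (Gamma1 M) 2) → Prop}
    (hT : ∀ (p : ℕ) (hp : p.Prime) (hpM : ¬ p ∣ M), p ∉ S → P (dshTLin 2 hp hpM))
    (hU : ∀ (p : ℕ) (_ : p.Prime) (hpM : p ∣ M), p ∉ S → P (dshULin 2 hpM))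
    (hD : ∀ d : (ZMod M)ˣ, P (dshDiamond 2 M d))
    (hint : ∀ m : ℤ, P (algebraMap ℤ _ m))
    (hadd : ∀ a b, a ∈ tgHeckeAlg M S → b ∈ tgHeckeAlg M S → P a → P b → P (a + b))
    (hmul : ∀ a b, a ∈ tgHeckeAlg M S → b ∈ tgHeckeAlg M S → P a → P b → P (a * b))
    {t : Module.End ℂ (CuspForm (Gamma1 M) 2)} (ht : t ∈ tgHeckeAlg M S) : P t := by
  have hadd' : ∀ a b, a ∈ Algebra.adjoin ℤ (tgHeckeGens M S) →
      b ∈ Algebra.adjoin ℤ (tgHeckeGens M S) → P a → P b → P (a + b) := by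
    intro a b ha hb
    rw [← tgHeckeAlg_eq] at ha hb
    exact hadd a b ha hb
  have hmul' : ∀ a b, a ∈ Algebra.adjoin ℤ (tgHeckeGens M S) →
      b ∈ Algebra.adjoin ℤ (tgHeckeGens M S) → P a → P b → P (a * b) := by
    intro a b ha hb
    rw [← tgHeckeAlg_eq] at ha hb
    exact hmul a b ha hb
  rw [tgHeckeAlg_eq] at ht
  induction ht using Algebra.adjoin_induction with
  | mem t ht =>
    rcases ht with (⟨p, hp, hpM, hpS, rfl⟩ | ⟨p, hp, hpM, hpS, rfl⟩) | ⟨d, rfl⟩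
    · exact hT p hp hpM hpS
    · exact hU p hp hpM hpS
    · exact hD d
  | algebraMap m => exact hint m
  | add a b ha hb pa pb => exact hadd' a b ha hb pa pb
  | mul a b ha hb pa pb => exact hmul' a b ha hb pa pb

/-- induction principle in terms of the set of generators -/
theorem tgHeckeAlg_induction_gens {P : Module.End ℂ (CuspForm (Gamma1 M) 2) → Prop}
    (hgen : ∀ t ∈ tgHeckeGens M S, P t) (hint : ∀ n : ℤ, P (algebraMap ℤ _ n))
    (hadd : ∀ x y, P x → P y → P (x + y)) (hmul : ∀ x y, P x → P y → P (x * y))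
    {t : Module.End ℂ (CuspForm (Gamma1 M) 2)} (ht : t ∈ tgHeckeAlg M S) : P t := by
  rw [tgHeckeAlg_eq] at ht
  induction ht using Algebra.adjoin_induction with
  | mem x hx => exact hgen x hx
  | algebraMap r => exact hint r
  | add x y _ _ hx hy => exact hadd x y hx hy
  | mul x y _ _ hx hy => exact hmul x y hx hy

/-- a subspace stable under the generators is stable under the Hecke algebra -/
theorem tgHeckeAlg_stable (W : Submodule ℂ (CuspForm (Gamma1 M) 2))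
    (hW : ∀ t ∈ tgHeckeGens M S, ∀ f ∈ W, t f ∈ W) (t : tgHeckeAlg M S) :
    ∀ f ∈ W, (t : Module.End ℂ (CuspForm (Gamma1 M) 2)) f ∈ W := by
  refine tgHeckeAlg_induction_gens (P := fun t => ∀ f ∈ W, t f ∈ W) hW ?_ ?_ ?_ t.2
  · intro r f hf
    rw [Algebra.algebraMap_eq_smul_one, LinearMap.smul_apply]
    exact W.smul_of_tower_mem r hf
  · intro x y hx hy f hf; exact W.add_mem (hx f hf) (hy f hf)
  · intro x y hx hy f hf; exact hx _ (hy f hf)

/-- the inclusion of Hecke algebras -/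
noncomputable def tgHeckeIncl {S S' : Set ℕ} (h : S ⊆ S') : tgHeckeAlg M S' →+* tgHeckeAlg M S :=
  (Subalgebra.inclusion (tgHeckeAlg_mono h)).toRingHom

@[simp] theorem coe_tgHeckeIncl {S S' : Set ℕ} (h : S ⊆ S') (t : tgHeckeAlg M S') :
    ((tgHeckeIncl h t : tgHeckeAlg M S) : Module.End ℂ (CuspForm (Gamma1 M) 2)) = t := rfl

theorem tgHeckeIncl_apply {S S' : Set ℕ} (h : S ⊆ S') (t : tgHeckeAlg M S') :
    tgHeckeIncl h t = ⟨t.1, tgHeckeAlg_mono h t.2⟩ := rfl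

theorem tgHeckeIncl_injective {S S' : Set ℕ} (h : S ⊆ S') :
    Function.Injective (tgHeckeIncl (M := M) h) :=
  Subalgebra.inclusion_injective _

/-- the action on cusp forms -/
noncomputable def tgHeckeAct (M : ℕ) [NeZero M] (S : Set ℕ) :
    tgHeckeAlg M S →+* Module.End ℂ (CuspForm (Gamma1 M) 2) :=
  (tgHeckeAlg M S).val.toRingHom

theorem tgHeckeAct_injective : Function.Injective (tgHeckeAct M S) :=
  Subtype.val_injective

@[simp] theorem tgHeckeAct_apply (t : tgHeckeAlg M S) :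
    tgHeckeAct M S t = (t : Module.End ℂ (CuspForm (Gamma1 M) 2)) := rfl

end Fermat.Agent.T1G
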