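/-
T1G / TG-MULT (helper8): **multiplicity two for the full Hecke algebra of `S₂(Γ₁(M))`**.

* `tgk_eq_zero_of_a1` : the `a₁`-duality (`q`-expansion principle): a cusp form `f` with
  `a₁(t f) = 0` for all `t` in the full Hecke algebra `tgHeckeAlg M ∅` vanishes.
* `tgkCuspData` : the abstract Eichler–Shimura package `TerMultData` for `Γ₁(M)`, from a lattice `L`
  with Hecke action and a Hecke-equivariant isomorphism `Φ : S₂ × S₂ ≃ ℂ ⊗ L`.
* `tgk_moduleFinite`, `tgk_finrank_eigen`, `tgk_exists_not_scalar(_neg)`, and the `p`-adic forms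
  `tgk_finrank_teEigen`, `tgk_exists_not_scalar_teEigen(_neg)`: the analogues of (H5), (H6) of T1-E.
* `tgk_extension` : extension of eigensystems from `tgHeckeAlg M S` to `tgHeckeAlg M ∅` (H7).
-/
import Fermat.Agent.Lib.T1G.Mult.HeckeAlg
import Fermat.Agent.Lib.DS.Hecke.FinDim
import Fermat.Agent.Lib.T1.Asm.Res.Mult
import Fermat.Agent.Lib.T1.Asm.Res.Extension

set_option autoImplicit false
set_option linter.style.haveILetI false
set_option linter.unusedSectionVars false

open scoped TensorProduct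
open CongruenceSubgroup ModularFormClass IsLocalRing

namespace Fermat.Agent.T1G

open Fermat.Agent.DS Fermat.Agent.T1

variable (M : ℕ) [NeZero M]

/-- the first `q`-coefficient as a linear functional -/
noncomputable def tgkA1 : CuspForm (Gamma1 M) 2 →ₗ[ℂ] ℂ where
  toFun f := qCoeff ⇑f 1
  map_add' f g := by
    rw [FunLike.coe_add, (dshNice_of_cuspForm f).qCoeff_add (dshNice_of_cuspForm g)]
  map_smul' c f := by
    rw [FunLike.coe_smul, (dshNice_of_cuspForm f).qCoeff_smul, RingHom.id_apply, smul_eq_mul]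

theorem tgkA1_apply (f : CuspForm (Gamma1 M) 2) : tgkA1 M f = qCoeff ⇑f 1 := rfl

variable {M}

/-- all coefficients of a form in the annihilator of the `a₁`-pairing vanish -/
theorem tgk_qCoeff_eq_zero (n : ℕ) :
    ∀ f : CuspForm (Gamma1 M) 2,
      (∀ t : tgHeckeAlg M (∅ : Set ℕ),
        qCoeff ⇑((t : Module.End ℂ (CuspForm (Gamma1 M) 2)) f) 1 = 0) → qCoeff ⇑f n = 0 := by
  induction n using Nat.strong_induction_on with
  | _ n ih =>
    intro f hf
    -- stability of the hypothesis under the Hecke algebra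
    have hstab : ∀ t₀ : tgHeckeAlg M (∅ : Set ℕ), ∀ t : tgHeckeAlg M (∅ : Set ℕ),
        qCoeff ⇑((t : Module.End ℂ (CuspForm (Gamma1 M) 2))
          ((t₀ : Module.End ℂ (CuspForm (Gamma1 M) 2)) f)) 1 = 0 := by
      intro t₀ t
      have := hf (t * t₀)
      rwa [Subalgebra.coe_mul, Module.End.mul_apply] at this
    rcases Nat.lt_or_ge n 2 with hn | hn
    · interval_cases n
      · exact (dshNice_of_cuspForm f).qCoeff_zero_of_isZeroAtImInfty (dshCusp_coe f).isZeroAtImInfty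
      · have := hf 1
        rwa [Subalgebra.coe_one, Module.End.one_apply] at this
    · have hn1 : n ≠ 1 := by omega
      have hp : (n.minFac).Prime := Nat.minFac_prime hn1
      set p := n.minFac with hpdef
      obtain ⟨m, hm⟩ : p ∣ n := Nat.minFac_dvd n
      have hmn : m < n := by
        rw [hm]
        have hm0 : 0 < m := by
          rcases Nat.eq_zero_or_pos m with h0 | h0
          · rw [h0, mul_zero] at hm; omega
          · exact h0
        have := hp.two_le
        nlinarith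
      have hnmp : n = m * p := by rw [hm, mul_comm]
      by_cases hpM : p ∣ M
      · have hU : dshULin 2 hpM ∈ tgHeckeAlg M (∅ : Set ℕ) :=
          tgU_mem hp hpM (Set.notMem_empty p)
        have h1 := ih m hmn (dshULin 2 hpM f) (hstab ⟨_, hU⟩)
        rw [qCoeff_dshULin] at h1
        rw [hnmp]; exact h1
      · have hT : dshTLin 2 hp hpM ∈ tgHeckeAlg M (∅ : Set ℕ) :=
          tgT_mem hp hpM (Set.notMem_empty p)
        have hD : dshDiamond 2 M (dshUnit M hp hpM) ∈ tgHeckeAlg M (∅ : Set ℕ) :=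
          tgDiamond_mem _
        have h1 := ih m hmn (dshTLin 2 hp hpM f) (hstab ⟨_, hT⟩)
        rw [qCoeff_dshTLin] at h1
        have h2 : (if p ∣ m then (p : ℂ) ^ ((2 : ℤ) - 1) *
            qCoeff ⇑(dshDiamond 2 M (dshUnit M hp hpM) f) (m / p) else 0) = 0 := by
          split_ifs with hpm
          · have hlt : m / p < n := lt_of_le_of_lt (Nat.div_le_self m p) hmn
            rw [ih (m / p) hlt (dshDiamond 2 M (dshUnit M hp hpM) f) (hstab ⟨_, hD⟩), mul_zero]
          · rfl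
        rw [h2, add_zero] at h1
        rw [hnmp]; exact h1

/-- **the `a₁`-duality**: a cusp form is determined by the functional `t ↦ a₁(t f)` on the full
Hecke algebra -/
theorem tgk_eq_zero_of_a1 (f : CuspForm (Gamma1 M) 2)
    (h : ∀ t : tgHeckeAlg M (∅ : Set ℕ),
      tgkA1 M ((t : Module.End ℂ (CuspForm (Gamma1 M) 2)) f) = 0) : f = 0 := by
  apply dsh_cuspForm_ext_qCoeff
  intro n
  rw [tgk_qCoeff_eq_zero n f h]
  exact (dsh_qCoeff_zero n).symm

/-- a commutative ring acting faithfully on a free `ℤ`-module of finite rank is finite over `ℤ` -/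
theorem tgk_moduleFinite_of_injective {𝕋 L : Type*} [CommRing 𝕋] [AddCommGroup L]
    [Module.Free ℤ L] [Module.Finite ℤ L] (φ : 𝕋 →+* Module.End ℤ L)
    (hφ : Function.Injective φ) : Module.Finite ℤ 𝕋 :=
  Module.Finite.of_injective (φ.toAddMonoidHom.toIntLinearMap) hφ

variable {L : Type} [AddCommGroup L]

/-- the abstract Eichler–Shimura package for `S₂(Γ₁(M))` -/
noncomputable def tgkCuspData (heckeL : tgHeckeAlg M (∅ : Set ℕ) →+* Module.End ℤ L)
    (Φ : (CuspForm (Gamma1 M) 2 × CuspForm (Gamma1 M) 2) ≃ₗ[ℂ] ℂ ⊗[ℤ] L)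
    (hΦ : ∀ (t : tgHeckeAlg M (∅ : Set ℕ)) (f g : CuspForm (Gamma1 M) 2),
      (heckeL t).baseChange ℂ (Φ (f, g)) =
        Φ ((t : Module.End ℂ (CuspForm (Gamma1 M) 2)) f,
          (t : Module.End ℂ (CuspForm (Gamma1 M) 2)) g)) :
    TerMultData ℂ (CuspForm (Gamma1 M) 2) (tgHeckeAlg M (∅ : Set ℕ)) L where
  act := tgHeckeAct M ∅
  act_injective := tgHeckeAct_injective
  a1 := tgkA1 M
  sep := tgk_eq_zero_of_a1
  heckeL := heckeL
  Φ := Φ
  Φ_hecke := hΦ

variable [Module.Free ℤ L] [Module.Finite ℤ L]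
  (heckeL : tgHeckeAlg M (∅ : Set ℕ) →+* Module.End ℤ L)
  (Φ : (CuspForm (Gamma1 M) 2 × CuspForm (Gamma1 M) 2) ≃ₗ[ℂ] ℂ ⊗[ℤ] L)
  (hΦ : ∀ (t : tgHeckeAlg M (∅ : Set ℕ)) (f g : CuspForm (Gamma1 M) 2),
      (heckeL t).baseChange ℂ (Φ (f, g)) =
        Φ ((t : Module.End ℂ (CuspForm (Gamma1 M) 2)) f,
          (t : Module.End ℂ (CuspForm (Gamma1 M) 2)) g))
  {K : Type} [Field K] [CharZero K] (lam : tgHeckeAlg M (∅ : Set ℕ) →+* K)

include hΦ in
/-- the full Hecke algebra is finite over `ℤ` -/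
theorem tgk_moduleFinite : Module.Finite ℤ (tgHeckeAlg M (∅ : Set ℕ)) :=
  tgk_moduleFinite_of_injective heckeL (tgkCuspData heckeL Φ hΦ).heckeL_injective

include hΦ in
theorem tgk_isIntegral : Algebra.IsIntegral ℤ (tgHeckeAlg M (∅ : Set ℕ)) :=
  haveI := tgk_moduleFinite heckeL Φ hΦ
  Algebra.IsIntegral.of_finite ℤ _

include hΦ in
/-- **multiplicity two**: every eigenspace of the full Hecke algebra in `K ⊗[ℤ] L` is
two-dimensional -/
theorem tgk_finrank_eigen :
    Module.finrank K ↥(teEigenL K heckeL (fun t => lam t)) = 2 :=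
  haveI := tgk_isIntegral heckeL Φ hΦ
  (tgkCuspData heckeL Φ hΦ).finrank_teEigenL lam

variable (wL : Module.End ℤ L)
  (hw : ∀ f g : CuspForm (Gamma1 M) 2, wL.baseChange ℂ (Φ (f, g)) = Φ (f, -g))

include hΦ hw in
/-- **the involution is not a scalar on any eigenspace** -/
theorem tgk_exists_not_scalar :
    ∃ v ∈ teEigenL K heckeL (fun t => lam t), ∀ z : K, wL.baseChange K v ≠ z • v :=
  haveI := tgk_isIntegral heckeL Φ hΦ
  (tgkCuspData heckeL Φ hΦ).exists_not_scalar lam wL hw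

include hΦ hw in
/-- the same for the negative of the involution (the action of complex conjugation) -/
theorem tgk_exists_not_scalar_neg :
    ∃ v ∈ teEigenL K heckeL (fun t => lam t), ∀ z : K, (-wL).baseChange K v ≠ z • v :=
  haveI := tgk_isIntegral heckeL Φ hΦ
  (tgkCuspData heckeL Φ hΦ).exists_not_scalar_neg lam wL hw

section Padic

variable {p : ℕ} [Fact p.Prime] {T : Type} [AddCommGroup T] [Module ℤ_[p] T]
  (e : ℤ_[p] ⊗[ℤ] L ≃ₗ[ℤ_[p]] T)
  (hecke : tgHeckeAlg M (∅ : Set ℕ) →+* Module.End ℤ_[p] T)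
  (he : ∀ t x, e ((heckeL t).baseChange ℤ_[p] x) = hecke t (e x))
  {𝒪 : Type} [CommRing 𝒪] [IsDomain 𝒪] [CharZero 𝒪] [Algebra ℤ_[p] 𝒪]
  (lamO : tgHeckeAlg M (∅ : Set ℕ) →+* 𝒪)

include hΦ he in
/-- **(H5)**: the eigen-lattice of the `p`-adic Tate module has rank two -/
theorem tgk_finrank_teEigen : Module.finrank 𝒪 ↥(teEigen hecke lamO) = 2 := by
  haveI : CharZero (FractionRing 𝒪) :=
    charZero_of_injective_algebraMap (IsFractionRing.injective 𝒪 (FractionRing 𝒪))
  rw [te_finrank_teEigen_eq e (FractionRing 𝒪) heckeL hecke he lamO]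
  exact tgk_finrank_eigen heckeL Φ hΦ ((algebraMap 𝒪 (FractionRing 𝒪)).comp lamO)

include hΦ he hw in
/-- **(H6)**: an endomorphism of the Tate module inducing the involution `wL` of the lattice is not a
scalar on the eigen-lattice -/
theorem tgk_exists_not_scalar_teEigen (w : Module.End ℤ_[p] T)
    (hwT : ∀ x, e (wL.baseChange ℤ_[p] x) = w (e x)) :
    ∃ v ∈ teEigen hecke lamO, ∀ z : 𝒪, w.baseChange 𝒪 v ≠ z • v := by
  haveI : CharZero (FractionRing 𝒪) :=
    charZero_of_injective_algebraMap (IsFractionRing.injective 𝒪 (FractionRing 𝒪))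
  exact te_exists_not_scalar_teEigen e (FractionRing 𝒪) heckeL hecke he lamO wL w hwT
    (tgk_exists_not_scalar heckeL Φ hΦ ((algebraMap 𝒪 (FractionRing 𝒪)).comp lamO) wL hw)

include hΦ he hw in
/-- **(H6)** for an endomorphism inducing `-wL` (complex conjugation) -/
theorem tgk_exists_not_scalar_teEigen_neg (w : Module.End ℤ_[p] T)
    (hwT : ∀ x, e ((-wL).baseChange ℤ_[p] x) = w (e x)) :
    ∃ v ∈ teEigen hecke lamO, ∀ z : 𝒪, w.baseChange 𝒪 v ≠ z • v := by
  haveI : CharZero (FractionRing 𝒪) :=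
    charZero_of_injective_algebraMap (IsFractionRing.injective 𝒪 (FractionRing 𝒪))
  exact te_exists_not_scalar_teEigen e (FractionRing 𝒪) heckeL hecke he lamO (-wL) w hwT
    (tgk_exists_not_scalar_neg heckeL Φ hΦ ((algebraMap 𝒪 (FractionRing 𝒪)).comp lamO) wL hw)

end Padic

/-- **(H7)**: every eigensystem of the Hecke algebra away from `S` extends to the full Hecke algebra
over a finite extension of the coefficient ring -/
theorem tgk_extension [Module.Finite ℤ (tgHeckeAlg M (∅ : Set ℕ))] (S : Set ℕ)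
    (𝒪' : Type) [CommRing 𝒪'] [IsDomain 𝒪'] [IsDiscreteValuationRing 𝒪']
    [IsAdicComplete (maximalIdeal 𝒪') 𝒪'] [Finite (ResidueField 𝒪')] [CharZero 𝒪']
    (χ : tgHeckeAlg M S →+* 𝒪') :
    ∃ (𝒪'' : Type) (_ : CommRing 𝒪'') (_ : IsDomain 𝒪'') (_ : IsDiscreteValuationRing 𝒪'')
      (_ : IsAdicComplete (maximalIdeal 𝒪'') 𝒪'') (_ : Finite (ResidueField 𝒪''))
      (_ : CharZero 𝒪'') (_ : Algebra 𝒪' 𝒪'') (_ : Module.Finite 𝒪' 𝒪'')
      (_ : IsLocalHom (algebraMap 𝒪' 𝒪'')),
      Function.Injective (algebraMap 𝒪' 𝒪'') ∧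
      ∃ lam : tgHeckeAlg M (∅ : Set ℕ) →+* 𝒪'',
        ∀ t : tgHeckeAlg M S,
          lam (tgHeckeIncl (Set.empty_subset S) t) = algebraMap 𝒪' 𝒪'' (χ t) :=
  ter_exists_extension (tgHeckeIncl (Set.empty_subset S)) (tgHeckeIncl_injective _) 𝒪' χ

end Fermat.Agent.T1G
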