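/-
T1G TG-MULT (0'): **finiteness of the Hecke algebra of weight two and level `Γ₁(M)` over `ℤ`**
(port of `Lib/S22/{Lattice,HeckeFinite}.lean` from `Γ₀(N)` to `Γ₁(M)`, with the diamond operators):
the modular symbol lattice `tgfLattice` in the dual of `S_k(Γ₁(M))` (`k = n + 1`) is finitely
generated, separates points (`n ≥ 1`) and is stable under every operator given by a finite sum of
slashes by integer matrices of positive determinant, in particular under `T_p`, `U_p`, `⟨d⟩`.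
Main result: `tg_moduleFinite_heckeAlg M S : Module.Finite ℤ (tgHeckeAlg M S)`.
-/
import Fermat.Agent.Lib.S22.HeckeFinite
import Fermat.Agent.Lib.T1G.Mult.HeckeAlg
import Fermat.Agent.Lib.DS.Hecke.VpLemma
set_option autoImplicit false
set_option linter.unusedSectionVars false

open UpperHalfPlane hiding I
open Complex Polynomial CongruenceSubgroup ModularFormClass Fermat.Agent.S22Lib Fermat.Agent.DS
open scoped Manifold Topology Real ModularForm MatrixGroups

namespace Fermat.Agent.T1G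

noncomputable section

variable (M : ℕ) [NeZero M]

/-- holomorphic `Γ₁(M)`-invariant functions of weight `≤ 0` vanishing at all cusps are zero -/
theorem tgf_eq_zero_of_nonpos {k : ℤ} (hk : k ≤ 0) (Φ : ℍ → ℂ) (hΦ : MDiff Φ)
    (hinv : ∀ γ ∈ Gamma1 M, Φ ∣[k] γ = Φ)
    (hzero : ∀ g : SL(2, ℤ), IsZeroAtImInfty (Φ ∣[k] g)) : Φ = 0 := by
  have hc : DshCusp k Φ := ⟨hΦ, fun c hc => by
    rw [OnePoint.isZeroAt_iff_forall_SL2Z hc]
    intro γ _
    exact hzero γ⟩
  let f₀ : CuspForm (Gamma1 M) k := dshMkCusp (Gamma1 M) k Φ hc hinv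
  let f : ModularForm (Gamma1 M) k := ModularFormClass.modularForm f₀
  have h1 : (1 : ℝ) ∈ ((Gamma1 M : Subgroup SL(2, ℤ)) : Subgroup (GL (Fin 2) ℝ)).strictPeriods := by
    rw [CongruenceSubgroup.strictPeriods_Gamma1]
    exact AddSubgroup.mem_zmultiples 1
  have hf : f = 0 := by
    refine ModularForm.sturm_bound_of_isArithmetic h1 ?_
    have hB : (k * ((Gamma1 M : Subgroup SL(2, ℤ)) : Subgroup (GL (Fin 2) ℝ)).relIndex 𝒮ℒ).toNat
        / 12 = 0 := by
      rw [Int.toNat_of_nonpos (mul_nonpos_of_nonpos_of_nonneg hk (Int.natCast_nonneg _))]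
    rw [hB]
    have h2 : ((0 + 1 : ℕ) : ℕ∞) ≤ (qExpansion 1 f).order :=
      PowerSeries.nat_le_order _ _ fun i hi => by
        obtain rfl : i = 0 := by omega
        exact CuspFormClass.qExpansion_coeff_zero f₀ one_pos h1
    refine lt_of_lt_of_le ?_ h2
    exact_mod_cast Nat.lt_succ_self 0
  have : (f : ℍ → ℂ) = Φ := rfl
  rw [← this, hf]
  rfl


variable {M}

theorem tgf_slash_eq {k : ℤ} (f : CuspForm (Gamma1 M) k) (γ : SL(2, ℤ)) (hγ : γ ∈ Gamma1 M) :
    (⇑f) ∣[k] γ = ⇑f :=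
  dshInv_coe f γ hγ

theorem tgf_isCuspidalAll {k : ℤ} (f : CuspForm (Gamma1 M) k) : IsCuspidalAll k ⇑f :=
  fun g => isCuspidal_slash_of_arithmetic _ k f g

/-- Separation: if all period polynomials of a `Γ₁(M)`-invariant `f` vanish then `f = 0`. -/
theorem tgf_eq_zero_of_periodPoly_eq_zero {n : ℕ} {f : ℍ → ℂ} (hn : 1 ≤ n)
    (hf : IsCuspidalAll ((n : ℤ) + 1) f)
    (hinv : ∀ γ ∈ Gamma1 M, f ∣[(n : ℤ) + 1] γ = f)
    (h0 : ∀ g h : SL(2, ℤ), periodPoly n f g h = 0) : f = 0 := by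
  have hE : ∀ g, eichlerInt n f g = eichlerInt n f 1 := by
    intro g
    have := polyFun_periodPoly hf g 1
    rw [h0, periodFun] at this
    have h1 : polyFun (0 : ℂ[X]) = 0 := by ext τ; simp
    rw [h1] at this
    exact sub_eq_zero.mp this.symm
  set Φ := eichlerInt n f 1 with hΦdef
  have hΦ : MDiff Φ := mdiff_eichlerInt hf 1
  have hinvΦ : ∀ γ ∈ Gamma1 M, Φ ∣[(1 : ℤ) - n] γ = Φ := by
    intro γ hγ
    have h1 := eichlerInt_mul_left (n := n) γ⁻¹ 1 (hinv γ⁻¹ (inv_mem hγ))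
    rw [mul_one, inv_inv, hE γ⁻¹] at h1
    exact h1.symm
  have hzero : ∀ g : SL(2, ℤ), IsZeroAtImInfty (Φ ∣[(1 : ℤ) - n] g) := by
    intro g
    have h1 : Φ ∣[(1 : ℤ) - n] g = cuspPrim n (f ∣[(n : ℤ) + 1] g) := by
      rw [← hE g, eichlerInt, ← SlashAction.slash_mul, inv_mul_cancel,
        SlashAction.slash_one]
    rw [h1]
    exact (isCuspidal_cuspPrim (hf g) n).zero
  have hk : (1 : ℤ) - n ≤ 0 := by
    have : (1 : ℤ) ≤ n := by exact_mod_cast hn
    linarith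
  have hΦ0 : Φ = 0 := tgf_eq_zero_of_nonpos M hk Φ hΦ hinvΦ hzero
  have := Dn_eichlerInt hf 1
  rw [← hΦdef, hΦ0, Dn_zero_fun] at this
  exact this.symm

variable (M) in
/-- the functional `f ↦ j`-th coefficient of the period polynomial of `f` -/
def tgfCoeff {k : ℤ} (n : ℕ) (hk : k = (n : ℤ) + 1) (g h : SL(2, ℤ)) (j : ℕ) :
    Module.Dual ℂ (CuspForm (Gamma1 M) k) where
  toFun f := (periodPoly n (⇑f) g h).coeff j
  map_add' f₁ f₂ := by
    subst hk
    rw [FunLike.coe_add, periodPoly_add (tgf_isCuspidalAll f₁) (tgf_isCuspidalAll f₂), coeff_add]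
  map_smul' c f := by
    subst hk
    rw [FunLike.coe_smul, periodPoly_smul (tgf_isCuspidalAll f), coeff_smul,
      RingHom.id_apply]

@[simp] theorem tgfCoeff_apply {k : ℤ} (n : ℕ) (hk : k = (n : ℤ) + 1) (g h : SL(2, ℤ)) (j : ℕ)
    (f : CuspForm (Gamma1 M) k) :
    tgfCoeff M n hk g h j f = (periodPoly n (⇑f) g h).coeff j := rfl

variable (M) in
/-- the modular symbol lattice -/
def tgfLattice {k : ℤ} (n : ℕ) (hk : k = (n : ℤ) + 1) :
    Submodule ℤ (Module.Dual ℂ (CuspForm (Gamma1 M) k)) :=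
  Submodule.span ℤ {x | ∃ (g h : SL(2, ℤ)) (j : Fin n), x = tgfCoeff M n hk g h j}

theorem tgfCoeff_mem {k : ℤ} (n : ℕ) (hk : k = (n : ℤ) + 1) (g h : SL(2, ℤ)) (j : Fin n) :
    tgfCoeff M n hk g h j ∈ tgfLattice M n hk :=
  Submodule.subset_span ⟨g, h, j, rfl⟩

/-- an integer combination of coefficient functionals lies in the lattice -/
theorem tgf_sum_mem {k : ℤ} (n : ℕ) (hk : k = (n : ℤ) + 1) (g h : SL(2, ℤ)) (c : ℕ → ℤ)
    (l : Module.Dual ℂ (CuspForm (Gamma1 M) k))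
    (hl : ∀ f, l f = ∑ i ∈ Finset.range n, (c i : ℂ) * (periodPoly n (⇑f) g h).coeff i) :
    l ∈ Submodule.span ℤ (Set.range fun j : Fin n => tgfCoeff M n hk g h j) := by
  have : l = ∑ i : Fin n, c i • tgfCoeff M n hk g h i := by
    ext f
    rw [hl f, LinearMap.sum_apply, Finset.sum_range]
    refine Finset.sum_congr rfl fun i _ => ?_
    rw [LinearMap.smul_apply, tgfCoeff_apply, zsmul_eq_mul]
  rw [this]
  exact Submodule.sum_mem _ fun i _ => Submodule.smul_mem _ _ (Submodule.subset_span ⟨i, rfl⟩)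

theorem tgfLattice_fg {k : ℤ} (n : ℕ) (hk : k = (n : ℤ) + 1) : (tgfLattice M n hk).FG := by
  subst hk
  refine fg_span_of_modular_symbol_relations (Gamma1 M)
    (fun g h (j : Fin n) => tgfCoeff M n rfl g h j) ?_ ?_ ?_
  · intro g h l j
    ext f
    simp only [LinearMap.add_apply, tgfCoeff_apply]
    rw [← coeff_add, periodPoly_add_trans (tgf_isCuspidalAll f)]
  · intro g j
    ext f
    simp only [LinearMap.zero_apply, tgfCoeff_apply]
    rw [periodPoly_mul_T (tgf_isCuspidalAll f), coeff_zero]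
  · intro γ hγ g h j
    obtain ⟨A, hA⟩ := polyAct_coeff_int n ((γ⁻¹ : SL(2, ℤ)) : Matrix (Fin 2) (Fin 2) ℤ)
    refine tgf_sum_mem n rfl g h (A j) _ fun f => ?_
    rw [tgfCoeff_apply, periodPoly_mul_left (tgf_isCuspidalAll f) γ g h
      (tgf_slash_eq f γ hγ), hA]

/-- coefficient functional of `f ∣ A` as an integer combination of coefficient functionals -/
theorem tgf_exists_coeff_slash_intGL (n : ℕ) (A : Matrix (Fin 2) (Fin 2) ℤ) (hA : 0 < A.det)
    (g h : SL(2, ℤ)) (j : ℕ) :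
    ∃ (g' h' : SL(2, ℤ)) (c : ℕ → ℤ),
      ∀ f : CuspForm (Gamma1 M) ((n : ℤ) + 1),
        (periodPoly n ((⇑f) ∣[(n : ℤ) + 1] intGL A hA) g h).coeff j =
          ∑ i ∈ Finset.range n, (c i : ℂ) * (periodPoly n (⇑f) g' h').coeff i := by
  have h1 : 0 < (A * (g : Matrix (Fin 2) (Fin 2) ℤ)).det := by
    rw [Matrix.det_mul, g.det_coe, mul_one]; exact hA
  have h2 : 0 < (A * (h : Matrix (Fin 2) (Fin 2) ℤ)).det := by
    rw [Matrix.det_mul, h.det_coe, mul_one]; exact hA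
  obtain ⟨g', a, b, d, ha, hd, hg'⟩ := exists_SL2Z_mul_eq_upper _ h1
  obtain ⟨h', a', b', d', ha', hd', hh'⟩ := exists_SL2Z_mul_eq_upper _ h2
  obtain ⟨C, hC⟩ := polyAct_coeff_int n A
  refine ⟨g', h', C j, fun f => ?_⟩
  rw [periodPoly_slash_intGL (tgf_isCuspidalAll f) A hA g g' h h' a b d a' b' d'
    ha hd ha' hd' hg' hh', hC]

/-- If an endomorphism `t` of the space of cusp forms is given on functions by a finite sum of
slashes by integer matrices of positive determinant, the symbol lattice is stable under `t`. -/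
theorem tgf_comp_mem {k : ℤ} (n : ℕ) (hk : k = (n : ℤ) + 1) {ι : Type*} (s : Finset ι)
    (A : ι → Matrix (Fin 2) (Fin 2) ℤ) (hA : ∀ i, 0 < (A i).det)
    (t : Module.End ℂ (CuspForm (Gamma1 M) k))
    (ht : ∀ f, (⇑(t f) : ℍ → ℂ) = ∑ i ∈ s, (⇑f) ∣[k] intGL (A i) (hA i))
    (l : Module.Dual ℂ (CuspForm (Gamma1 M) k))
    (hl : l ∈ tgfLattice M n hk) : l ∘ₗ t ∈ tgfLattice M n hk := by
  classical
  subst hk
  refine Submodule.span_induction (p := fun l _ => l ∘ₗ t ∈ tgfLattice M n rfl) ?_ ?_ ?_ ?_ hl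
  · rintro _ ⟨g, h, j, rfl⟩
    choose g' h' c hc using fun i => tgf_exists_coeff_slash_intGL (M := M) n (A i) (hA i) g h (j : ℕ)
    have key : tgfCoeff M n rfl g h j ∘ₗ t =
        ∑ i ∈ s, ∑ m : Fin n, c i m • tgfCoeff M n rfl (g' i) (h' i) m := by
      ext f
      rw [LinearMap.comp_apply, tgfCoeff_apply, ht f,
        periodPoly_sum s _ (fun i _ => (tgf_isCuspidalAll f).slash_intGL (A i) (hA i)),
        Polynomial.finsetSum_coeff, LinearMap.sum_apply]
      refine Finset.sum_congr rfl fun i _ => ?_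
      rw [hc i f, LinearMap.sum_apply, Finset.sum_range]
      refine Finset.sum_congr rfl fun m _ => ?_
      rw [LinearMap.smul_apply, tgfCoeff_apply, zsmul_eq_mul]
    rw [key]
    exact Submodule.sum_mem _ fun i _ => Submodule.sum_mem _ fun m _ =>
      Submodule.smul_mem _ _ (tgfCoeff_mem n rfl _ _ m)
  · rw [LinearMap.zero_comp]; exact Submodule.zero_mem _
  · intro x y _ _ hx hy
    rw [LinearMap.add_comp]; exact Submodule.add_mem _ hx hy
  · intro a x _ hx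
    have : (a • x) ∘ₗ t = a • (x ∘ₗ t) := by
      ext f; simp
    rw [this]; exact Submodule.smul_mem _ _ hx

/-- The symbol lattice separates points (for `n ≥ 1`). -/
theorem tgf_eq_zero_of_forall_lattice {k : ℤ} (n : ℕ) (hk : k = (n : ℤ) + 1) (hn : 1 ≤ n)
    (f : CuspForm (Gamma1 M) k)
    (hf : ∀ l ∈ tgfLattice M n hk, l f = 0) : f = 0 := by
  subst hk
  have h0 : ∀ g h : SL(2, ℤ), periodPoly n (⇑f) g h = 0 := by
    intro g h
    ext j
    rw [coeff_zero]
    by_cases hj : j < n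
    · exact hf _ (tgfCoeff_mem n rfl g h ⟨j, hj⟩)
    · exact Polynomial.coeff_eq_zero_of_degree_lt
        (lt_of_lt_of_le (periodPoly_degree_lt n _ g h) (by exact_mod_cast not_lt.mp hj))
  have := tgf_eq_zero_of_periodPoly_eq_zero (M := M) hn (tgf_isCuspidalAll f)
    (fun γ hγ => tgf_slash_eq f γ hγ) h0
  exact DFunLike.coe_injective this


/-! ### The Hecke operators of weight two -/

theorem tgf_two : (2 : ℤ) = ((1 : ℕ) : ℤ) + 1 := by norm_num

theorem tgf_SL_det_pos (γ : SL(2, ℤ)) : 0 < (γ : Matrix (Fin 2) (Fin 2) ℤ).det := by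
  rw [γ.det_coe]; exact one_pos

theorem tgf_diamond_comp_mem (d : (ZMod M)ˣ) (l : Module.Dual ℂ (CuspForm (Gamma1 M) 2))
    (hl : l ∈ tgfLattice M 1 tgf_two) : l ∘ₗ dshDiamond 2 M d ∈ tgfLattice M 1 tgf_two := by
  refine tgf_comp_mem 1 tgf_two (Finset.range 1)
    (fun _ : ℕ => ((dshGammaU M d : SL(2, ℤ)) : Matrix (Fin 2) (Fin 2) ℤ))
    (fun _ => tgf_SL_det_pos _) _ (fun f => ?_) l hl
  rw [Finset.sum_range_one, coe_dshDiamond]
  exact SL_slash_eq_intGL 2 _ _ _ (tgf_SL_det_pos _) rfl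

theorem tgf_U_comp_mem {q : ℕ} (hq : q ≠ 0) (hqM : q ∣ M)
    (l : Module.Dual ℂ (CuspForm (Gamma1 M) 2)) (hl : l ∈ tgfLattice M 1 tgf_two) :
    l ∘ₗ dshULin 2 hqM ∈ tgfLattice M 1 tgf_two := by
  refine tgf_comp_mem 1 tgf_two (Finset.range q) (fun j : ℕ => !![1, (j : ℤ); 0, (q : ℤ)])
    (fun j => det_heckeU_matrix hq j) _ (fun f => ?_) l hl
  rw [coe_dshULin, ModularForm.heckeU_def]
  refine Finset.sum_congr rfl fun j _ => ?_
  rw [heckeMatrix_eq_intGL hq j (det_heckeU_matrix hq j)]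

theorem tgf_det_mul_diag {p : ℕ} (hp : p ≠ 0) (γ : SL(2, ℤ)) :
    0 < ((γ : Matrix (Fin 2) (Fin 2) ℤ) * !![(p : ℤ), 0; 0, 1]).det := by
  rw [Matrix.det_mul, γ.det_coe, one_mul]
  exact det_heckeDiag_matrix hp

theorem tgf_T_comp_mem {p : ℕ} (hp : p.Prime) (hpM : ¬ p ∣ M)
    (l : Module.Dual ℂ (CuspForm (Gamma1 M) 2)) (hl : l ∈ tgfLattice M 1 tgf_two) :
    l ∘ₗ dshTLin 2 hp hpM ∈ tgfLattice M 1 tgf_two := by
  have hp0 : p ≠ 0 := hp.ne_zero
  set γ : SL(2, ℤ) := dshGammaU M (dshUnit M hp hpM) with hγ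
  refine tgf_comp_mem 1 tgf_two (Finset.range (p + 1))
    (fun j : ℕ => if j < p then !![1, (j : ℤ); 0, (p : ℤ)]
      else (γ : Matrix (Fin 2) (Fin 2) ℤ) * !![(p : ℤ), 0; 0, 1])
    (fun j => by
      by_cases hj : j < p
      · simp only [hj, if_true]; exact det_heckeU_matrix hp0 j
      · simp only [hj, if_false]; exact tgf_det_mul_diag hp0 γ) _ (fun f => ?_) l hl
  rw [coe_dshTLin_eq_add, ModularForm.heckeU_def, Finset.sum_range_succ, coe_dshDiamond]
  congr 1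
  · refine Finset.sum_congr rfl fun j hj => ?_
    have hj' : j < p := Finset.mem_range.mp hj
    rw [heckeMatrix_eq_intGL hp0 j (det_heckeU_matrix hp0 j)]
    congr 1
    exact intGL_congr (by simp [hj']) _ _
  · rw [heckeDiagMatrix_eq_intGL hp0 (det_heckeDiag_matrix hp0),
      SL_slash_eq_intGL 2 _ γ _ (tgf_SL_det_pos γ) rfl, ← SlashAction.slash_mul,
      ← intGL_mul _ _ (tgf_SL_det_pos γ) (det_heckeDiag_matrix hp0) (tgf_det_mul_diag hp0 γ)]
    congr 1
    exact intGL_congr (by simp) _ _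

/-- **Finiteness of the Hecke algebra of weight two and level `Γ₁(M)` over `ℤ`** -/
theorem tg_moduleFinite_heckeAlg (M : ℕ) [NeZero M] (S : Set ℕ) :
    Module.Finite ℤ (tgHeckeAlg M S) := by
  rw [tgHeckeAlg_eq]
  refine moduleFinite_adjoin_of_dual_lattice (tgHeckeGens M S)
    (tgfLattice M 1 tgf_two) (tgfLattice_fg 1 tgf_two) ?_
    (tgf_eq_zero_of_forall_lattice 1 tgf_two le_rfl)
  rintro t ((⟨p, hp, hpM, -, rfl⟩ | ⟨p, hp, hpM, -, rfl⟩) | ⟨d, rfl⟩) l hl
  · exact tgf_T_comp_mem hp hpM l hl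
  · exact tgf_U_comp_mem hp.ne_zero hpM l hl
  · exact tgf_diamond_comp_mem d l hl

instance tgHeckeAlg.instModuleFinite (M : ℕ) [NeZero M] (S : Set ℕ) :
    Module.Finite ℤ (tgHeckeAlg M S) := tg_moduleFinite_heckeAlg M S

end

end Fermat.Agent.T1G
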