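/-
T1G TG-MULT (0''), helper4: the identification of the (opaque) Hecke algebra `tgHeckeAlg M S` of
`Lib/T1G/Mult/HeckeAlg.lean` with `Algebra.adjoin ℤ (tgHeckeGens M S)` as an algebra isomorphism.
-/
import Fermat.Agent.Lib.T1G.Mult.HeckeAlg

set_option autoImplicit false

open CongruenceSubgroup Fermat.Agent.DS

namespace Fermat.Agent.T1G

variable {M : ℕ} [NeZero M] {S : Set ℕ}

/-- the Hecke algebra as the algebra generated by the Hecke operators -/
noncomputable def tgHeckeAdjoinEquiv (M : ℕ) [NeZero M] (S : Set ℕ) :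
    tgHeckeAlg M S ≃ₐ[ℤ] Algebra.adjoin ℤ (tgHeckeGens M S) :=
  Subalgebra.equivOfEq _ _ (tgHeckeAlg_eq M S)

@[simp] theorem coe_tgHeckeAdjoinEquiv (t : tgHeckeAlg M S) :
    ((tgHeckeAdjoinEquiv M S t : Algebra.adjoin ℤ (tgHeckeGens M S)) :
      Module.End ℂ (CuspForm (Gamma1 M) 2)) = t := rfl

@[simp] theorem coe_tgHeckeAdjoinEquiv_symm (t : Algebra.adjoin ℤ (tgHeckeGens M S)) :
    (((tgHeckeAdjoinEquiv M S).symm t : tgHeckeAlg M S) :
      Module.End ℂ (CuspForm (Gamma1 M) 2)) = t := rfl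

end Fermat.Agent.T1G
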