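/-
T1G / TG-MULT export (X2) (helper8): **finitely many `q`-coefficients determine all the others by
fixed integral linear combinations**, for weight-two cusp forms on `Γ₁(M)` (every `M ≥ 1`).

* `tgq_exists_Tn` : for every `n` there is an element `T_n` of the full Hecke algebra
  `tgHeckeAlg M ∅` with `a_n(f) = a₁(T_n f)` for all `f`;
* `tgqTn M n`, `tgqTn_spec`;
* `tgq_span : DsqSpan M` (the Hecke algebra is a finitely generated `ℤ`-module:
  `tg_moduleFinite_heckeAlg`).
-/
import Fermat.Agent.Lib.T1G.Mult.Cusp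
import Fermat.Agent.Lib.T1G.Mult.HeckeFinite
import Fermat.Agent.Lib.DS.Rat.Defs

set_option autoImplicit false
set_option linter.style.haveILetI false
set_option linter.unusedSectionVars false

open CongruenceSubgroup ModularFormClass

namespace Fermat.Agent.T1G

open Fermat.Agent.DS

variable {M : ℕ} [NeZero M]

/-- `q`-coefficients of cusp forms are additive -/
theorem tgq_qCoeff_add (f g : CuspForm (Gamma1 M) 2) (n : ℕ) :
    qCoeff ⇑(f + g) n = qCoeff ⇑f n + qCoeff ⇑g n := by
  rw [FunLike.coe_add, (dshNice_of_cuspForm f).qCoeff_add (dshNice_of_cuspForm g)]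

theorem tgq_qCoeff_smul (c : ℂ) (f : CuspForm (Gamma1 M) 2) (n : ℕ) :
    qCoeff ⇑(c • f) n = c * qCoeff ⇑f n := by
  rw [FunLike.coe_smul, (dshNice_of_cuspForm f).qCoeff_smul]

variable (M) in
/-- the `n`-th `q`-coefficient as a linear functional -/
noncomputable def tgqCoeff (n : ℕ) : CuspForm (Gamma1 M) 2 →ₗ[ℂ] ℂ where
  toFun f := qCoeff ⇑f n
  map_add' f g := tgq_qCoeff_add f g n
  map_smul' c f := by rw [tgq_qCoeff_smul, RingHom.id_apply, smul_eq_mul]

theorem tgqCoeff_apply (n : ℕ) (f : CuspForm (Gamma1 M) 2) : tgqCoeff M n f = qCoeff ⇑f n := rfl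

theorem tgqCoeff_one : tgqCoeff M 1 = tgkA1 M := rfl

/-- **the `n`-th Hecke operator**: an element `T_n` of the full Hecke algebra with
`a_n(f) = a₁(T_n f)` -/
theorem tgq_exists_Tn (n : ℕ) : ∃ t : tgHeckeAlg M (∅ : Set ℕ), ∀ f : CuspForm (Gamma1 M) 2,
    qCoeff ⇑f n = qCoeff ⇑((t : Module.End ℂ (CuspForm (Gamma1 M) 2)) f) 1 := by
  induction n using Nat.strong_induction_on with
  | _ n ih =>
    rcases Nat.lt_or_ge n 2 with hn | hn
    · interval_cases n
      · refine ⟨0, fun f => ?_⟩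
        rw [(dshNice_of_cuspForm f).qCoeff_zero_of_isZeroAtImInfty (dshCusp_coe f).isZeroAtImInfty,
          ZeroMemClass.coe_zero, LinearMap.zero_apply]
        exact (map_zero (tgqCoeff M 1)).symm
      · exact ⟨1, fun f => by rw [OneMemClass.coe_one, Module.End.one_apply]⟩
    · have hn1 : n ≠ 1 := by omega
      have hp : (n.minFac).Prime := Nat.minFac_prime hn1
      set p := n.minFac with hpdef
      obtain ⟨m, hm⟩ : p ∣ n := Nat.minFac_dvd n
      have hmn : m < n := by
        rw [hm]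
        have hm0 : 0 < m := by
          rcases Nat.eq_zero_or_pos m with h0 | h0
          · rw [h0, mul_zero] at hm; omega
          · exact h0
        have := hp.two_le
        nlinarith
      have hnmp : n = m * p := by rw [hm, mul_comm]
      obtain ⟨t, ht⟩ := ih m hmn
      by_cases hpM : p ∣ M
      · have hU : dshULin 2 hpM ∈ tgHeckeAlg M (∅ : Set ℕ) :=
          tgU_mem hp hpM (Set.notMem_empty p)
        refine ⟨t * ⟨_, hU⟩, fun f => ?_⟩
        rw [Subalgebra.coe_mul, Module.End.mul_apply, ← ht, qCoeff_dshULin, hnmp]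
      · have hT : dshTLin 2 hp hpM ∈ tgHeckeAlg M (∅ : Set ℕ) :=
          tgT_mem hp hpM (Set.notMem_empty p)
        have hD : dshDiamond 2 M (dshUnit M hp hpM) ∈ tgHeckeAlg M (∅ : Set ℕ) :=
          tgDiamond_mem _
        by_cases hpm : p ∣ m
        · have hlt : m / p < n := lt_of_le_of_lt (Nat.div_le_self m p) hmn
          obtain ⟨t', ht'⟩ := ih (m / p) hlt
          refine ⟨t * ⟨_, hT⟩ - (p : ℤ) • (t' * ⟨_, hD⟩), fun f => ?_⟩
          have h1 := qCoeff_dshTLin hp hpM f m
          rw [if_pos hpm] at h1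
          have h2 : qCoeff ⇑f n = qCoeff ⇑(dshTLin 2 hp hpM f) m -
              (p : ℂ) * qCoeff ⇑(dshDiamond 2 M (dshUnit M hp hpM) f) (m / p) := by
            rw [h1, hnmp]
            norm_num
          rw [h2, ht, ht']
          rw [Subalgebra.coe_sub, Subalgebra.coe_smul, Subalgebra.coe_mul, Subalgebra.coe_mul,
            LinearMap.sub_apply, LinearMap.smul_apply, Module.End.mul_apply, Module.End.mul_apply]
          have h3 : ∀ (a b : CuspForm (Gamma1 M) 2), qCoeff ⇑(a - (p : ℤ) • b) 1 =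
              qCoeff ⇑a 1 - (p : ℂ) * qCoeff ⇑b 1 := by
            intro a b
            have := map_sub (tgqCoeff M 1) a ((p : ℤ) • b)
            rw [map_zsmul] at this
            simpa [tgqCoeff_apply] using this
          rw [h3]
        · refine ⟨t * ⟨_, hT⟩, fun f => ?_⟩
          have h1 := qCoeff_dshTLin hp hpM f m
          rw [if_neg hpm, add_zero] at h1
          rw [Subalgebra.coe_mul, Module.End.mul_apply, ← ht, h1, hnmp]

variable (M) in
/-- a choice of the `n`-th Hecke operator `T_n` -/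
noncomputable def tgqTn (n : ℕ) : tgHeckeAlg M (∅ : Set ℕ) := Classical.choose (tgq_exists_Tn n)

theorem tgqTn_spec (n : ℕ) (f : CuspForm (Gamma1 M) 2) :
    qCoeff ⇑f n = qCoeff ⇑((tgqTn M n : Module.End ℂ (CuspForm (Gamma1 M) 2)) f) 1 :=
  Classical.choose_spec (tgq_exists_Tn n) f

/-- the functional `t ↦ a₁(t f)` on the Hecke algebra, as an additive map -/
noncomputable def tgqPair (f : CuspForm (Gamma1 M) 2) : tgHeckeAlg M (∅ : Set ℕ) →+ ℂ where
  toFun t := qCoeff ⇑((t : Module.End ℂ (CuspForm (Gamma1 M) 2)) f) 1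
  map_zero' := by
    rw [ZeroMemClass.coe_zero, LinearMap.zero_apply]
    exact map_zero (tgqCoeff M 1)
  map_add' s t := by
    rw [Subalgebra.coe_add, LinearMap.add_apply]
    exact tgq_qCoeff_add _ _ 1

theorem tgqPair_apply (f : CuspForm (Gamma1 M) 2) (t : tgHeckeAlg M (∅ : Set ℕ)) :
    tgqPair f t = qCoeff ⇑((t : Module.End ℂ (CuspForm (Gamma1 M) 2)) f) 1 := rfl

theorem tgqPair_Tn (f : CuspForm (Gamma1 M) 2) (n : ℕ) : tgqPair f (tgqTn M n) = qCoeff ⇑f n :=
  (tgqTn_spec n f).symm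

/-- **(X2)**: all `q`-coefficients of the weight-two cusp forms on `Γ₁(M)` are fixed integral linear
combinations of finitely many of them -/
theorem tgq_span : DsqSpan M := by
  classical
  haveI : Module.Finite ℤ (tgHeckeAlg M (∅ : Set ℕ)) := tg_moduleFinite_heckeAlg M ∅
  haveI : IsNoetherian ℤ (tgHeckeAlg M (∅ : Set ℕ)) := isNoetherian_of_isNoetherianRing_of_finite ℤ _
  have hfg : (Submodule.span ℤ (Set.range (tgqTn M))).FG := IsNoetherian.noetherian _
  obtain ⟨s, hs, hspan⟩ := (Submodule.fg_span_iff_fg_span_finset_subset _).mp hfg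
  have hidx : ∀ x : tgHeckeAlg M (∅ : Set ℕ), ∃ i, x ∈ s → tgqTn M i = x := by
    intro x
    by_cases hx : x ∈ s
    · obtain ⟨i, hi⟩ := hs hx
      exact ⟨i, fun _ => hi⟩
    · exact ⟨0, fun h => absurd h hx⟩
  choose idx hidx using hidx
  let I : Finset ℕ := s.image idx
  have hsI : (s : Set (tgHeckeAlg M (∅ : Set ℕ))) ⊆ tgqTn M '' (I : Set ℕ) := by
    intro x hx
    exact ⟨idx x, Finset.mem_coe.mpr (Finset.mem_image_of_mem idx hx), hidx x hx⟩
  have hmem : ∀ n, tgqTn M n ∈ Submodule.span ℤ (tgqTn M '' (I : Set ℕ)) := by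
    intro n
    have h1 : tgqTn M n ∈ Submodule.span ℤ (Set.range (tgqTn M)) :=
      Submodule.subset_span ⟨n, rfl⟩
    rw [hspan] at h1
    exact Submodule.span_mono hsI h1
  have hc : ∀ n, ∃ c : ℕ → ℤ, ∑ i ∈ I, c i • tgqTn M i = tgqTn M n := fun n =>
    (Submodule.mem_span_image_finset_iff_exists_fun' ℤ).mp (hmem n)
  choose c hc using hc
  refine ⟨I, c, fun g n => ?_⟩
  rw [← tgqPair_Tn g n, ← hc n, map_sum]
  refine Finset.sum_congr rfl fun i _ => ?_
  rw [map_zsmul, tgqPair_Tn, zsmul_eq_mul]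

end Fermat.Agent.T1G
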