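/-
T1G / TG-MULT export (X1) (helper8): **the weight-two cusp forms on `Γ₁(M)` are stable, on
`q`-expansions, under every ring endomorphism of `ℂ`**.

* `tgq_exists_of_additive` : abstract duality: an additive functional on the Hecke ring which
  respects the linear relations between the Hecke operators is `t ↦ a₁(t f)` for some `f`;
* `tgq_conj_of_data` : `DsqConj M 2` from the abstract Eichler–Shimura package (lattice `L` with Hecke
  action `heckeL` and equivariant `Φ : S₂ × S₂ ≃ ℂ ⊗ L`), via `TerMultData.hext` (relations between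
  the Hecke operators are defined over `ℤ`);
* `tgqHeckeL hsurj`, `tgqHeckeL_spec` : the Hecke action of `tgHeckeAlg M ∅` on the lattice
  `tgeL (Gamma1 M)`;
* `tgq_conj_two hsurj : DsqConj M 2`, and `tgq_conj_two_six (hM : 6 ≤ M) : DsqConj M 2`.
-/
import Fermat.Agent.Lib.T1G.Mult.Span
import Fermat.Agent.Lib.T1G.Mult.HeckeElts
import Fermat.Agent.Lib.T1G.ES.LatticeHecke
import Fermat.Agent.Lib.T1G.ES.DictModel

set_option autoImplicit false
set_option linter.style.haveILetI false
set_option linter.unusedSectionVars false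

open scoped TensorProduct
open CongruenceSubgroup ModularFormClass

namespace Fermat.Agent.T1G

open Fermat.Agent.DS Fermat.Agent.T1

section Abstract

variable {K : Type*} [Field K] {V : Type*} [AddCommGroup V] [Module K V]
  {𝕋 : Type*} [CommRing 𝕋] (act : 𝕋 →+* Module.End K V) (a1 : V →ₗ[K] K)

/-- **abstract duality**: an additive functional `μ` on the Hecke ring which respects the `K`-linear
relations between the operators `act t` is of the form `t ↦ a₁(t f)` -/
theorem tgq_exists_of_additive [FiniteDimensional K V]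
    (hsep : ∀ f, (∀ t, a1 (act t f) = 0) → f = 0) (μ : 𝕋 →+ K)
    (hext : ∀ c : 𝕋 →₀ K, Finsupp.linearCombination K (fun t => act t) c = 0 →
      Finsupp.linearCombination K (fun t => μ t) c = 0) :
    ∃ f : V, ∀ t, a1 (act t f) = μ t := by
  classical
  let B : (𝕋 →₀ K) →ₗ[K] Module.Dual K V :=
    Finsupp.linearCombination K (fun t => a1 ∘ₗ act t)
  have hB : ∀ c f, B c f = a1 (Finsupp.linearCombination K (fun t => act t) c f) := by
    intro c f
    induction c using Finsupp.induction_linear with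
    | zero => simp
    | add c₁ c₂ h₁ h₂ =>
      rw [map_add, LinearMap.add_apply, h₁, h₂, map_add, LinearMap.add_apply, map_add]
    | single t a =>
      simp only [B, Finsupp.linearCombination_single, LinearMap.smul_apply, LinearMap.comp_apply,
        map_smul]
  let G : V →ₗ[K] Module.Dual K (𝕋 →₀ K) := B.flip
  let muLin : Module.Dual K (𝕋 →₀ K) := Finsupp.linearCombination K (fun t => μ t)
  have hmem : muLin ∈ LinearMap.range G := by
    haveI : FiniteDimensional K ↥(LinearMap.range G) := LinearMap.finiteDimensional_range G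
    rw [← Subspace.dualCoannihilator_dualAnnihilator_eq (W := LinearMap.range G),
      Submodule.mem_dualAnnihilator]
    intro c hc
    rw [Submodule.mem_dualCoannihilator] at hc
    apply hext
    refine LinearMap.ext fun f => hsep _ fun s => ?_
    rw [← Module.End.mul_apply, ter_linearCombination_comm,
      Module.End.mul_apply, ← hB]
    exact hc (G (act s f)) ⟨_, rfl⟩
  obtain ⟨f, hf⟩ := hmem
  refine ⟨f, fun t => ?_⟩
  have h1 := LinearMap.congr_fun hf (Finsupp.single t 1)
  simpa [G, B, muLin, Finsupp.linearCombination_single] using h1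

end Abstract

variable {M : ℕ} [NeZero M]

section Data

variable {L : Type} [AddCommGroup L] [Module.Free ℤ L] [Module.Finite ℤ L]
  (heckeL : tgHeckeAlg M (∅ : Set ℕ) →+* Module.End ℤ L)
  (Φ : (CuspForm (Gamma1 M) 2 × CuspForm (Gamma1 M) 2) ≃ₗ[ℂ] ℂ ⊗[ℤ] L)
  (hΦ : ∀ (t : tgHeckeAlg M (∅ : Set ℕ)) (f g : CuspForm (Gamma1 M) 2),
      (heckeL t).baseChange ℂ (Φ (f, g)) =
        Φ ((t : Module.End ℂ (CuspForm (Gamma1 M) 2)) f,
          (t : Module.End ℂ (CuspForm (Gamma1 M) 2)) g))

include hΦ in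
/-- every additive functional on the full Hecke algebra is `t ↦ a₁(t g')` for a cusp form `g'` -/
theorem tgq_exists_of_data (μ : tgHeckeAlg M (∅ : Set ℕ) →+ ℂ) :
    ∃ g' : CuspForm (Gamma1 M) 2, ∀ t, tgqPair g' t = μ t := by
  let D := tgkCuspData heckeL Φ hΦ
  haveI : FiniteDimensional ℂ (CuspForm (Gamma1 M) 2) := D.finiteDimensional
  exact tgq_exists_of_additive D.act D.a1 D.sep μ (fun c hc => D.hext μ c hc)

include hΦ in
/-- **(X1) from the abstract Eichler–Shimura package** -/
theorem tgq_conj_of_data : DsqConj M 2 := by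
  intro g σ
  obtain ⟨g', hg'⟩ := tgq_exists_of_data heckeL Φ hΦ (σ.toAddMonoidHom.comp (tgqPair g))
  refine ⟨g', fun n => ?_⟩
  rw [← tgqPair_Tn g' n, ← tgqPair_Tn g n, hg']
  rfl

end Data

section Gamma1

variable (hsurj : Function.Surjective (tgePair (Gamma1 M)))

include hsurj in
theorem tgq_gens_lat : ∀ g ∈ tgHeckeGens M (∅ : Set ℕ),
    ∃ s, TdmLat (tgePhi (Gamma1 M) hsurj) g s := by
  rintro g ((⟨p, hp, hpM, -, rfl⟩ | ⟨p, hp, hpM, -, rfl⟩) | ⟨d, rfl⟩)
  · exact ⟨_, tgeLat_T hsurj hp hpM⟩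
  · exact ⟨_, tgeLat_U hsurj hpM hp.ne_zero⟩
  · exact ⟨_, tgeLat_D hsurj d⟩

/-- the Hecke action of the full Hecke algebra on the lattice `tgeL (Gamma1 M)` -/
noncomputable def tgqHeckeL : tgHeckeAlg M (∅ : Set ℕ) →+* Module.End ℤ ↥(tgeL (Gamma1 M)) :=
  (tgeHeckeGen (Gamma1 M) hsurj (tgHeckeGens M ∅) (tgq_gens_lat hsurj)).comp
    (tgHeckeAdjoinEquiv M ∅ : tgHeckeAlg M (∅ : Set ℕ) →+* Algebra.adjoin ℤ (tgHeckeGens M ∅))

theorem tgqHeckeL_spec (t : tgHeckeAlg M (∅ : Set ℕ)) (f g : CuspForm (Gamma1 M) 2) :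
    (tgqHeckeL hsurj t).baseChange ℂ (tgePhi (Gamma1 M) hsurj (f, g)) =
      tgePhi (Gamma1 M) hsurj ((t : Module.End ℂ (CuspForm (Gamma1 M) 2)) f,
        (t : Module.End ℂ (CuspForm (Gamma1 M) 2)) g) :=
  tgeHeckeGen_spec (Gamma1 M) hsurj (tgHeckeGens M ∅) (tgq_gens_lat hsurj)
    (tgHeckeAdjoinEquiv M ∅ t) f g

include hsurj in
/-- **(X1)** for `Γ₁(M)`, from the surjectivity of the Eichler–Shimura pairing -/
theorem tgq_conj_two : DsqConj M 2 :=
  tgq_conj_of_data (tgqHeckeL hsurj) (tgePhi (Gamma1 M) hsurj) (tgqHeckeL_spec hsurj)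

end Gamma1

/-- **(X1)**, unconditionally for `6 ≤ M` -/
theorem tgq_conj_two_six (hM : 6 ≤ M) : DsqConj M 2 :=
  tgq_conj_two (tgePair_surjective_Gamma1_six M hM)

end Fermat.Agent.T1G
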